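import Mathlib.GroupTheory.Index
import Mathlib.GroupTheory.Subgroup.Simple
import Mathlib.GroupTheory.Subgroup.Centralizer
import Mathlib.GroupTheory.GroupAction.Quotient
import Mathlib.GroupTheory.Perm.ViaEmbedding
import Mathlib.Algebra.Group.Subgroup.Finite
import Mathlib.Algebra.BigOperators.Ring.Finset
import Mathlib.Tactic.Ring
import Mathlib.Algebra.Order.BigOperators.Group.Finset
import Mathlib.Data.Fintype.Perm
import Mathlib.Tactic.Group

/-!
# The Brauer–Fowler theorem

Two involutions with product `x` both invert `x`, so at most `|C(x)|` pairs of involutions have the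
product `x`. Having at least `|G|/c` involutions, the group thus has an element other than `1` with
at most `2c²` conjugates.
-/

set_option autoImplicit false
set_option linter.style.haveILetI false

noncomputable section

open Finset

namespace FA.BrauerFowler

variable {G : Type*} [Group G] [Fintype G]

open scoped Classical in
/-- At most `|C(x)|` pairs of involutions have the product `x`. -/
theorem card_pairs_le (S : Finset G) (hS : ∀ u ∈ S, u * u = 1) (x : G) :
    #((S ×ˢ S).filter fun p => p.1 * p.2 = x) ≤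
      Nat.card (Subgroup.centralizer ({x} : Set G)) := by
  rcases ((S ×ˢ S).filter fun p => p.1 * p.2 = x).eq_empty_or_nonempty with h | ⟨⟨u₀, v₀⟩, h₀⟩
  · simp [h]
  have hinv : ∀ u v, u ∈ S → v ∈ S → u * v = x → u * x * u = x⁻¹ := fun u v hu hv huv => by
    rw [← huv, ← mul_assoc, hS u hu, one_mul, mul_inv_rev,
      inv_eq_of_mul_eq_one_right (hS u hu), inv_eq_of_mul_eq_one_right (hS v hv)]
  obtain ⟨h₀', hx₀⟩ := mem_filter.1 h₀
  obtain ⟨hu₀, hv₀⟩ := mem_product.1 h₀'
  rw [← Nat.card_eq_finsetCard]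
  refine Nat.card_le_card_of_injective (fun p => ⟨u₀ * p.1.1, ?_⟩) fun p q hpq => ?_
  · obtain ⟨hp, hx⟩ := mem_filter.1 p.2
    obtain ⟨hu, hv⟩ := mem_product.1 hp
    have h1 := hinv u₀ v₀ hu₀ hv₀ hx₀
    have h2 := hinv _ _ hu hv hx
    rw [Subgroup.mem_centralizer_singleton_iff]
    have h3 : p.1.1 * x = x⁻¹ * p.1.1 := by
      rw [← h2, mul_assoc _ p.1.1 p.1.1, hS _ hu, mul_one]
    have h4 : u₀ * x⁻¹ = x * u₀ := by
      rw [← h1, ← mul_assoc, ← mul_assoc, hS _ hu₀, one_mul]
    rw [mul_assoc, h3, ← mul_assoc, h4, mul_assoc]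
  · have h1 : p.1.1 = q.1.1 := mul_left_cancel (congrArg Subtype.val hpq)
    refine Subtype.ext (Prod.ext h1 ?_)
    have h2 := (mem_filter.1 p.2).2.trans (mem_filter.1 q.2).2.symm
    rw [h1] at h2
    exact mul_left_cancel h2

/-- **An element with few conjugates.** -/
theorem exists_small_index {t : G} (ht : t * t = 1)
    (hc : Nat.card (Subgroup.centralizer ({t} : Set G)) < Nat.card G) :
    ∃ x : G, x ≠ 1 ∧ (Subgroup.centralizer ({x} : Set G)).index ≤
      2 * Nat.card (Subgroup.centralizer ({t} : Set G)) ^ 2 := by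
  classical
  set c := Nat.card (Subgroup.centralizer ({t} : Set G))
  set S := univ.image fun g : G => g * t * g⁻¹
  have hS : ∀ u ∈ S, u * u = 1 := fun u hu => by
    obtain ⟨g, -, rfl⟩ := mem_image.1 hu
    rw [show g * t * g⁻¹ * (g * t * g⁻¹) = g * (t * t) * g⁻¹ by group, ht]
    group
  have hcard : #S * c = Nat.card G := by
    rw [← Subgroup.index_mul_card (Subgroup.centralizer ({t} : Set G))]
    congr 1
    rw [Subgroup.index, ← Nat.card_eq_finsetCard]
    refine (Nat.card_congr (Equiv.ofBijective (fun q : G ⧸ Subgroup.centralizer ({t} : Set G) =>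
      (⟨q.out * t * q.out⁻¹, mem_image.2 ⟨_, mem_univ _, rfl⟩⟩ : S))
      ⟨fun a b hab => ?_, fun u => ?_⟩)).symm
    · rw [← QuotientGroup.out_eq' a, ← QuotientGroup.out_eq' b, QuotientGroup.eq,
        Subgroup.mem_centralizer_singleton_iff]
      have h : a.out * t * a.out⁻¹ = b.out * t * b.out⁻¹ := congrArg Subtype.val hab
      calc a.out⁻¹ * b.out * t = a.out⁻¹ * (b.out * t * b.out⁻¹) * b.out := by group
        _ = t * (a.out⁻¹ * b.out) := by rw [← h]; group
    · obtain ⟨g, -, hg⟩ := mem_image.1 u.2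
      refine ⟨g, Subtype.ext ?_⟩
      obtain ⟨k, hk⟩ := QuotientGroup.mk_out_eq_mul (Subgroup.centralizer ({t} : Set G)) g
      show (g : G ⧸ Subgroup.centralizer ({t} : Set G)).out * t * _ = _
      rw [hk, ← hg, show g * (k : G) * t = g * ((k : G) * t) by group,
        Subgroup.mem_centralizer_singleton_iff.1 k.2]
      group
  have h2 : 2 ≤ #S := by
    by_contra h
    have := Nat.mul_le_mul_right c (Nat.le_of_lt_succ (not_le.1 h))
    omega
  by_contra! hall
  set M := 2 * c ^ 2 + 1
  have hle : (#S * #S - #S) * M ≤ Nat.card G * Nat.card G := by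
    have hoff : #S * #S - #S = #S.offDiag := (offDiag_card S).symm
    rw [hoff, card_eq_sum_card_image (fun p : G × G => p.1 * p.2) S.offDiag, sum_mul]
    calc _ ≤ ∑ _x ∈ S.offDiag.image fun p : G × G => p.1 * p.2, Nat.card G :=
          sum_le_sum fun x hx => ?_
      _ ≤ _ := by
          rw [sum_const, smul_eq_mul]
          exact Nat.mul_le_mul_right _ ((card_le_univ _).trans_eq Nat.card_eq_fintype_card.symm)
    obtain ⟨p, hp, rfl⟩ := mem_image.1 hx
    obtain ⟨hu, hv, hne'⟩ := mem_offDiag.1 hp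
    have hx1 : p.1 * p.2 ≠ 1 := fun h => hne' <| by
      rw [← inv_eq_of_mul_eq_one_right (hS _ hu), inv_eq_of_mul_eq_one_right h]
    refine (Nat.mul_le_mul ((card_le_card ?_).trans (card_pairs_le S hS (p.1 * p.2)))
      (hall _ hx1)).trans_eq (Subgroup.card_mul_index _)
    intro q hq
    obtain ⟨hq1, hq2⟩ := mem_filter.1 hq
    exact mem_filter.2 ⟨mem_product.2 ⟨(mem_offDiag.1 hq1).1, (mem_offDiag.1 hq1).2.1⟩, hq2⟩
  have h3 : #S * #S ≤ 2 * (#S * #S - #S) := by
    have := Nat.mul_le_mul_right #S h2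
    omega
  have h4 : #S * #S * M ≤ #S * #S * (2 * c ^ 2) := by
    calc #S * #S * M ≤ 2 * (#S * #S - #S) * M := Nat.mul_le_mul_right M h3
      _ ≤ 2 * (Nat.card G * Nat.card G) := by rw [mul_assoc]; exact Nat.mul_le_mul_left 2 hle
      _ = #S * #S * (2 * c ^ 2) := by rw [← hcard]; ring
  exact absurd (Nat.le_of_mul_le_mul_left h4 (Nat.mul_pos (by omega) (by omega)))
    (Nat.not_succ_le_self _)

/-- **Brauer–Fowler**: a simple group embeds into the permutations of `2c²` letters. -/
theorem exists_embedding [IsSimpleGroup G] (hG : ¬∀ a b : G, a * b = b * a) {t : G}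
    (ht : t * t = 1) (hne : t ≠ 1) :
    ∃ f : G →* Equiv.Perm (Fin (2 * Nat.card (Subgroup.centralizer ({t} : Set G)) ^ 2)),
      Function.Injective f := by
  have hproper : ∀ x : G, x ≠ 1 → Subgroup.centralizer ({x} : Set G) ≠ ⊤ := fun x hx htop => by
    have hcen : x ∈ Subgroup.center G := Subgroup.mem_center_iff.2 fun g =>
      Subgroup.mem_centralizer_singleton_iff.1 (htop ▸ Subgroup.mem_top g)
    rcases (inferInstance : (Subgroup.center G).Normal).eq_bot_or_eq_top with h | h
    · exact hx (Subgroup.mem_bot.1 (h ▸ hcen))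
    · exact hG fun a b => (Subgroup.mem_center_iff.1 (h ▸ Subgroup.mem_top b) a)
  have hc : Nat.card (Subgroup.centralizer ({t} : Set G)) < Nat.card G :=
    lt_of_le_of_ne (Subgroup.card_le_card_group _) fun h =>
      hproper t hne (Subgroup.eq_top_of_card_eq _ h)
  obtain ⟨x, hx, hle⟩ := exists_small_index ht hc
  set C := Subgroup.centralizer ({x} : Set G)
  set f := MulAction.toPermHom G (G ⧸ C)
  have hf : Function.Injective f := by
    rw [← MonoidHom.ker_eq_bot_iff]
    refine f.normal_ker.eq_bot_or_eq_top.resolve_right fun htop => hproper x hx ?_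
    refine eq_top_iff.2 fun g _ => ?_
    have h : g • ((1 : G) : G ⧸ C) = ((1 : G) : G ⧸ C) := by
      have hg : f g = 1 := MonoidHom.mem_ker.1 (htop ▸ Subgroup.mem_top g)
      show f g ((1 : G) : G ⧸ C) = _
      rw [hg]
      rfl
    rw [MulAction.Quotient.smul_coe, QuotientGroup.eq] at h
    simpa using h
  haveI : Fintype (G ⧸ C) := Fintype.ofFinite _
  obtain ⟨ι⟩ := Function.Embedding.nonempty_of_card_le (α := G ⧸ C)
    (β := Fin (2 * Nat.card (Subgroup.centralizer ({t} : Set G)) ^ 2)) (by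
      rwa [Fintype.card_fin, ← Nat.card_eq_fintype_card])
  exact ⟨(Equiv.Perm.viaEmbeddingHom ι).comp f,
    (Equiv.Perm.viaEmbeddingHom_injective ι).comp hf⟩

end FA.BrauerFowler

end
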